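/-
GAMMA-KM-DIV (helper3), part 1: the fibre lemmas of the KEY chain for an ARBITRARY base divisor.

This is `Lib/Alpha/KM/ChainPt.lean` with the base divisor `n·inf` (`alpxPt inf n`) replaced by any
divisor `B` of degree `≥ 6g + 2`, and `2n·inf` by `B + B`.  (In GAMMA, `B = n • I` with `I` the
polar divisor of the chart function, or `I = inf_∞ + inf_0`.)

Data (CurveP setting, `K` algebraically closed, any characteristic): `B` with `6g + 2 ≤ deg B`,
`D₁ D₂ D₃ E0` of degree `g` (`D₃` effective), `h ≠ 0` with `div h = D₃ + E0 - D₁ - D₂`.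

* `s33d_chain_mul_mem` : `h · (u · u') ∈ L(B + B - E0)` for `u ∈ L(B - D₁)`, `u' ∈ L(B - D₂)`;
* `s33d_chain_span`    : the products `u · u'` span `L(B + B - D₁ - D₂)`, of dimension
  `2 deg B - 3g + 1`;
* `s33d_chain_colon`   : `u · L(B - E0) ⊆ h · L(B + B - D₁ - D₂) ↔ u ∈ L(B - D₃)`;
* `s33d_chain_unique`  : if `ℓ(D₃) = 1`, every `h'` with `h' · (u · u') ∈ L(B + B - E0)` is `a • h`;
* `s33d_chain_finrank` : the dimensions.
-/
import Mathlib
import Fermat.Agent.Lib.Alpha.KM.Chain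

set_option autoImplicit false
set_option linter.unusedSectionVars false

namespace Fermat.Agent.S33

open Fermat.Agent.Curve Fermat.Agent.CurveP AlgebraicCurve PlaceAux RRAux Fermat.Agent.Alpha

variable {K F : Type*} [Field K] [Field F] [Algebra K F] [IsAlgClosed K]
  {x : F} (hx : IsFunctionFieldGen K F x)
  [Algebra.IsSeparable (IntermediateField.adjoin K {x}) F]

include hx

section Chain

variable {B : Divisor K F} (hB : 6 * (genusR K F : ℤ) + 2 ≤ Divisor.degree B)
  {D₁ D₂ D₃ E0 : Divisor K F}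
  (hD₁deg : Divisor.degree D₁ = genusR K F) (hD₂deg : Divisor.degree D₂ = genusR K F)
  (hD₃ : 0 ≤ D₃) (hD₃deg : Divisor.degree D₃ = genusR K F)
  (hE0deg : Divisor.degree E0 = genusR K F)
  {h : F} (hh0 : h ≠ 0) (hh : ∀ P : Place K F, P.ord h = (D₃ + E0 - D₁ - D₂) P)

include hh0 hh in
theorem s33d_chain_divOf : divOf hx h = D₃ + E0 - D₁ - D₂ := by
  ext P
  rw [divOf_apply hx hh0, hh P]

include hh0 hh hD₃ in
/-- `h · (u · u') ∈ L(B + B - E0 - D₃) ⊆ L(B + B - E0)`. -/
theorem s33d_chain_mul_mem' {u u' : F} (hu : u ∈ riemannRochSpace (B - D₁))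
    (hu' : u' ∈ riemannRochSpace (B - D₂)) :
    h * (u * u') ∈ riemannRochSpace (B + B - E0 - D₃) := by
  have h1 : u * u' ∈ riemannRochSpace (B - D₁ + (B - D₂)) :=
    mul_mem_riemannRochSpace hu hu'
  have h2 := (alpk_mul_mem_iff hx (B - D₁ + (B - D₂)) hh0 (u * u')).mpr h1
  have h3 : B - D₁ + (B - D₂) - divOf hx h = B + B - E0 - D₃ := by
    rw [s33d_chain_divOf hx hh0 hh]
    abel
  rwa [h3] at h2

include hh0 hh hD₃ in
/-- `h · (u · u') ∈ L(B + B - E0)`. -/
theorem s33d_chain_mul_mem {u u' : F} (hu : u ∈ riemannRochSpace (B - D₁))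
    (hu' : u' ∈ riemannRochSpace (B - D₂)) :
    h * (u * u') ∈ riemannRochSpace (B + B - E0) :=
  alpk_space_sub_le hx _ hD₃ (s33d_chain_mul_mem' hx hD₃ hh0 hh hu hu')

include hB hD₁deg hD₂deg in
/-- the products span `L(B + B - D₁ - D₂)`. -/
theorem s33d_chain_span :
    Submodule.span K {f : F | ∃ u ∈ riemannRochSpace (B - D₁),
      ∃ u' ∈ riemannRochSpace (B - D₂), f = u * u'} =
      riemannRochSpace (B + B - D₁ - D₂) ∧
    (Module.finrank K ↥(riemannRochSpace (B + B - D₁ - D₂)) : ℤ) =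
      2 * Divisor.degree B - 3 * genusR K F + 1 := by
  have hdeg₁ : Divisor.degree (B - D₁) = Divisor.degree B - genusR K F := by
    rw [map_sub, hD₁deg]
  have hdeg₂ : Divisor.degree (B - D₂) = Divisor.degree B - genusR K F := by
    rw [map_sub, hD₂deg]
  have hmul := alpk_mul_eq hx (A := B - D₁) (B := B - D₂)
    (by rw [hdeg₁]; omega) (by rw [hdeg₂]; omega)
  have hsum : B - D₁ + (B - D₂) = B + B - D₁ - D₂ := by abel
  rw [hsum] at hmul
  constructor
  · rw [← hmul, Submodule.mul_eq_span_mul_set]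
    congr 1
    ext f
    simp only [Set.mem_mul, SetLike.mem_coe, Set.mem_ofPred_eq]
    constructor
    · rintro ⟨u, hu, u', hu', rfl⟩
      exact ⟨u, hu, u', hu', rfl⟩
    · rintro ⟨u, hu, u', hu', rfl⟩
      exact ⟨u, hu, u', hu', rfl⟩
  · have hdeg : Divisor.degree (B + B - D₁ - D₂) =
        2 * Divisor.degree B - 2 * genusR K F := by
      rw [map_sub, map_sub, map_add, hD₁deg, hD₂deg]
      ring
    have := alpk_ell_eq hx (A := B + B - D₁ - D₂) (by rw [hdeg]; omega)
    rw [ell, hdeg] at this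
    rw [this]
    ring

include hB hD₁deg hD₂deg hE0deg hh0 hh in
/-- **the colon step**: `u · L(B - E0) ⊆ h · L(B + B - D₁ - D₂) ↔ u ∈ L(B - D₃)`. -/
theorem s33d_chain_colon (u : F) :
    (∀ b ∈ riemannRochSpace (B - E0),
      ∃ t ∈ riemannRochSpace (B + B - D₁ - D₂), u * b = h * t) ↔
      u ∈ riemannRochSpace (B - D₃) := by
  have hBE : 2 * (genusR K F : ℤ) ≤ Divisor.degree (B - E0) := by
    rw [map_sub, hE0deg]; omega
  have hCB : B + B - D₁ - D₂ - divOf hx h - (B - E0) = B - D₃ := by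
    rw [s33d_chain_divOf hx hh0 hh]
    abel
  rw [← hCB, ← alpk_colon hx hBE]
  constructor
  · intro hu b hb
    rw [alpk_mem_sub_divOf_iff hx _ hh0]
    exact hu b hb
  · intro hu b hb
    rw [← alpk_mem_sub_divOf_iff hx _ hh0]
    exact hu b hb

include hB hD₁deg hD₂deg hD₃ hh0 hh in
/-- **uniqueness of the multiplier** up to a constant, if `ℓ(D₃) = 1`. -/
theorem s33d_chain_unique (hell : ell D₃ = 1) (h' : F)
    (hh' : ∀ u ∈ riemannRochSpace (B - D₁), ∀ u' ∈ riemannRochSpace (B - D₂),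
        h' * (u * u') ∈ riemannRochSpace (B + B - E0)) :
    ∃ a : K, h' = a • h := by
  obtain ⟨hspan, -⟩ := s33d_chain_span hx hB hD₁deg hD₂deg
  have hg0 : (0 : ℤ) ≤ genusR K F := Int.natCast_nonneg _
  have hA : 2 * (genusR K F : ℤ) ≤ Divisor.degree (B + B - D₁ - D₂) := by
    rw [map_sub, map_sub, map_add, hD₁deg, hD₂deg]
    omega
  -- `h' · L(A12) ⊆ L(B + B - E0)`
  have hall : ∀ t ∈ riemannRochSpace (B + B - D₁ - D₂),
      h' * t ∈ riemannRochSpace (B + B - E0) := by
    intro t ht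
    rw [← hspan] at ht
    refine Submodule.span_induction ?_ ?_ ?_ ?_ ht
    · rintro f ⟨u, hu, u', hu', rfl⟩
      exact hh' u hu u' hu'
    · rw [mul_zero]; exact zero_mem _
    · intro a b _ _ ha hb
      rw [mul_add]; exact add_mem ha hb
    · intro c a _ ha
      rw [mul_smul_comm]; exact Submodule.smul_mem _ c ha
  have hmem' : h' ∈ riemannRochSpace (B + B - E0 - (B + B - D₁ - D₂)) :=
    (alpk_colon hx hA h').mp hall
  have hE : B + B - E0 - (B + B - D₁ - D₂) = D₁ + D₂ - E0 := by abel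
  rw [hE] at hmem'
  -- `h ∈ L(D₁ + D₂ - E0)` and this space is `≅ L(D₃)`, one-dimensional
  have hdiv := s33d_chain_divOf hx hh0 hh
  have hE' : D₁ + D₂ - E0 = D₃ - divOf hx h := by rw [hdiv]; abel
  have hmem : h ∈ riemannRochSpace (D₁ + D₂ - E0) := by
    rw [hE', alpk_mem_sub_divOf_iff hx D₃ hh0]
    refine ⟨1, ?_, (mul_one h).symm⟩
    rw [mem_riemannRochSpace_iff]
    intro v
    right
    have := hD₃ v
    rw [Finsupp.zero_apply] at this
    rw [v.ord_one]
    omega
  have hell' : ell (D₁ + D₂ - E0) = 1 := by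
    have h1 := ell_add_divOf hx (D₁ + D₂ - E0) hh0
    have h2 : D₁ + D₂ - E0 + divOf hx h = D₃ := by rw [hdiv]; abel
    rw [h2] at h1
    rw [← h1, hell]
  have hfin : Module.finrank K ↥(riemannRochSpace (D₁ + D₂ - E0)) = 1 := hell'
  have hne : (⟨h, hmem⟩ : ↥(riemannRochSpace (D₁ + D₂ - E0))) ≠ 0 :=
    fun h0 => hh0 (congrArg Subtype.val h0)
  obtain ⟨a, ha⟩ := (finrank_eq_one_iff_of_nonzero' _ hne).mp hfin ⟨h', hmem'⟩
  exact ⟨a, (congrArg Subtype.val ha).symm⟩

include hB hD₃deg hE0deg in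
/-- **the dimensions**. -/
theorem s33d_chain_finrank :
    (Module.finrank K ↥(riemannRochSpace (B - D₃)) : ℤ) =
      Divisor.degree B + 1 - 2 * genusR K F ∧
    (Module.finrank K ↥(riemannRochSpace B) : ℤ) = Divisor.degree B + 1 - genusR K F ∧
    (Module.finrank K ↥(riemannRochSpace (B + B - E0)) : ℤ) =
      2 * Divisor.degree B + 1 - 2 * genusR K F := by
  have hg0 : (0 : ℤ) ≤ genusR K F := Int.natCast_nonneg _
  refine ⟨?_, ?_, ?_⟩
  · have hdeg : Divisor.degree (B - D₃) = Divisor.degree B - genusR K F := by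
      rw [map_sub, hD₃deg]
    have := alpk_ell_eq hx (A := B - D₃) (by rw [hdeg]; omega)
    rw [ell, hdeg] at this
    rw [this]; ring
  · have := alpk_ell_eq hx (A := B) (by omega)
    rw [ell] at this
    rw [this]
  · have hdeg : Divisor.degree (B + B - E0) = 2 * Divisor.degree B - genusR K F := by
      rw [map_sub, map_add, hE0deg]
      ring
    have := alpk_ell_eq hx (A := B + B - E0) (by rw [hdeg]; omega)
    rw [ell, hdeg] at this
    rw [this]; ring

end Chain

end Fermat.Agent.S33
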