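/-
GAMMA-KM-DIV (helper3), part 2: **the fibre packages** for helper8's ring-valued specialisations
`S33kSp` (`Lib/S33/Key/*R.lean`).

* `s33d_fibre` : the GENERIC fibre.  For a specialisation `S : S33kSp D K F` in the CurveP setting
  (`K` algebraically closed, `F / K` a function field) whose frames/sections are the expected
  Riemann-Roch spaces for an ARBITRARY base divisor `B`, `6g + 2 ≤ deg B`:
  `span ε1 = L(B)`, `span (w j) = L(B - D₁)`, `span (w' j) = L(B - D₂)`, `span (β t) = L(B - E0)`,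
  `BE = L(B + B - E0)`, `div h = D₃ + E0 - D₁ - D₂`, `ℓ(D₃) = 1`,
  the Hom-kernel space is the line `K h`, the products span `L(B + B - D₁ - D₂)` (of dimension
  `2 deg B - 3g + 1`), the colon space of every nonzero element of the Hom-kernel space is
  `L(B - D₃)`, and some product is a unit.  (`Lib/Alpha/Key/Fibre.lean` for a general base divisor.)

* `s33d_fibre_closed` : the CLOSED fibre of the cluster of `0`, over a commutative ring `Fb`
  (`κ_∞ × κ_0`), from an abstract "nodal calculus": submodules `X = L̄(B̄ - Ē0)`, `Y = L̄(B̄)`,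
  `Z = L̄(2B̄ - Ē0)`, `XX = L̄(2B̄ - 2Ē0)` with `X · X = XX ⊆ Z`, `(Z : XX) = k`, `(XX : X) ∩ Y = X`.
  It delivers verbatim the closed-fibre hypotheses `hne0 hCcl hCu hDcl hEcl` of `s33k_chain`.
-/
import Mathlib
import Fermat.Agent.Lib.S33.Key.ChainR
import Fermat.Agent.Lib.S33.Div.Chain

set_option autoImplicit false
set_option linter.unusedSectionVars false
set_option linter.unusedVariables false

namespace Fermat.Agent.S33

open Fermat.Agent.Curve Fermat.Agent.CurveP AlgebraicCurve PlaceAux RRAux Fermat.Agent.Alpha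

section Abstract

variable {T : Type*} [CommRing T] {D : AlpxChainData T} {L E : Type*} [Field L] [CommRing E]
  [Algebra L E] (S : S33kSp D L E)

/-- the span of the products is the product of the spans -/
theorem s33d_SP_eq_mul :
    S.SP = Submodule.span L (Set.range fun j => S.ev1 (D.w j)) *
      Submodule.span L (Set.range fun j => S.ev1 (D.w' j)) := by
  rw [Submodule.span_mul_span, S33kSp.SP]
  congr 1
  ext f
  constructor
  · rintro ⟨p, rfl⟩
    exact Set.mul_mem_mul ⟨p.1, rfl⟩ ⟨p.2, rfl⟩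
  · rintro ⟨_, ⟨j, rfl⟩, _, ⟨j', rfl⟩, rfl⟩
    exact ⟨(j, j'), rfl⟩

/-- products of elements of the two spans lie in the span of the products -/
theorem s33d_mul_mem_SP {u u' : E}
    (hu : u ∈ Submodule.span L (Set.range fun j => S.ev1 (D.w j)))
    (hu' : u' ∈ Submodule.span L (Set.range fun j => S.ev1 (D.w' j))) : u * u' ∈ S.SP := by
  rw [s33d_SP_eq_mul]
  exact Submodule.mul_mem_mul hu hu'

/-- `h' ∈ HK` iff `h' · SP ⊆ BE` -/
theorem s33d_mem_HK_iff (h' : E) : h' ∈ S.HK ↔ ∀ t ∈ S.SP, h' * t ∈ S.BE := by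
  constructor
  · intro hh' t ht
    have hle : S.SP ≤ S.BE.comap (LinearMap.mulLeft L h') := by
      rw [S33kSp.SP, Submodule.span_le]
      rintro _ ⟨p, rfl⟩
      exact hh' p
    exact hle ht
  · intro hall p
    exact hall _ (Submodule.subset_span ⟨p, rfl⟩)

/-- membership in `SPh h` -/
theorem s33d_mem_SPh_iff (h f : E) : f ∈ S.SPh h ↔ ∃ t ∈ S.SP, f = h * t := by
  rw [S33kSp.SPh_eq_map, Submodule.mem_map]
  constructor
  · rintro ⟨t, ht, rfl⟩
    exact ⟨t, ht, rfl⟩
  · rintro ⟨t, ht, rfl⟩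
    exact ⟨t, ht, rfl⟩

/-- the colon condition on the generators extends to the span -/
theorem s33d_mem_W3_iff (h u : E) : u ∈ S.W3 h ↔
    u ∈ Submodule.span L (Set.range S.ε1) ∧
      ∀ b ∈ Submodule.span L (Set.range fun t => S.ev1 (D.β t)), ∃ t ∈ S.SP, u * b = h * t := by
  rw [S33kSp.mem_W3]
  refine and_congr_right fun _ => ?_
  constructor
  · intro hall b hb
    have hle : Submodule.span L (Set.range fun t => S.ev1 (D.β t)) ≤
        (S.SPh h).comap (LinearMap.mulLeft L u) := by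
      rw [Submodule.span_le]
      rintro _ ⟨t, rfl⟩
      exact hall t
    exact (s33d_mem_SPh_iff S h _).mp (hle hb)
  · intro hall t
    exact (s33d_mem_SPh_iff S h _).mpr (hall _ (Submodule.subset_span ⟨t, rfl⟩))

/-- **The closed fibre of the cluster of `0`**, from an abstract nodal calculus. -/
theorem s33d_fibre_closed [Nontrivial E] (X Y Z XX : Submodule L E)
    (hε : Submodule.span L (Set.range S.ε1) = Y)
    (hw : Submodule.span L (Set.range fun j => S.ev1 (D.w j)) = X)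
    (hw' : Submodule.span L (Set.range fun j => S.ev1 (D.w' j)) = X)
    (hβ : Submodule.span L (Set.range fun t => S.ev1 (D.β t)) = X)
    (hβ' : S.BE = Z)
    (hmul : X * X = XX) (hXXZ : XX ≤ Z)
    (hHK : ∀ h : E, (∀ t ∈ XX, h * t ∈ Z) → ∃ a : L, h = a • (1 : E))
    (hcolon : ∀ u ∈ Y, (∀ b ∈ X, u * b ∈ XX) → u ∈ X)
    (hunit : ∀ {ι : Type} (b : ι → E), Submodule.span L (Set.range b) = X → ∃ i, IsUnit (b i))
    (hXY : X ≤ Y)
    (hG2 : Y ≤ X ⊔ Submodule.span L (Set.range fun i => S.ev1 (D.cc i))) :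
    S.SP = XX ∧ S.HK = Submodule.span L {(1 : E)} ∧
      (∃ p, IsUnit (S.P p)) ∧
      (∀ h1 ∈ S.HK, ∀ h2 ∈ S.HK, h1 ≠ 0 → ∃ l : L, h2 = l • h1) ∧
      (∀ h ∈ S.HK, h ≠ 0 → IsUnit h) ∧
      (∀ h ∈ S.HK, h ≠ 0 → S.W3 h = X ∧
        Submodule.span L (Set.range S.ε1) ≤
          S.W3 h ⊔ Submodule.span L (Set.range fun i => S.ev1 (D.cc i))) := by
  have hSP : S.SP = XX := by rw [s33d_SP_eq_mul, hw, hw', hmul]
  have hHKeq : S.HK = Submodule.span L {(1 : E)} := by
    ext h
    rw [s33d_mem_HK_iff, hSP, hβ', Submodule.mem_span_singleton]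
    constructor
    · intro hh
      obtain ⟨a, ha⟩ := hHK h hh
      exact ⟨a, ha.symm⟩
    · rintro ⟨a, rfl⟩ t ht
      rw [smul_mul_assoc, one_mul]
      exact Z.smul_mem a (hXXZ ht)
  have hHKmem : ∀ h ∈ S.HK, ∃ a : L, h = a • (1 : E) := by
    intro h hh
    rw [hHKeq, Submodule.mem_span_singleton] at hh
    obtain ⟨a, ha⟩ := hh
    exact ⟨a, ha.symm⟩
  have hW3one : S.W3 1 = X := by
    ext u
    rw [s33d_mem_W3_iff, hβ, hSP, hε]
    constructor
    · rintro ⟨huY, hu⟩
      refine hcolon u huY fun b hb => ?_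
      obtain ⟨t, ht, hut⟩ := hu b hb
      rw [hut, one_mul]
      exact ht
    · intro hu
      refine ⟨hXY hu, fun b hb => ⟨u * b, ?_, (one_mul _).symm⟩⟩
      rw [← hmul]
      exact Submodule.mul_mem_mul hu hb
  have hW3 : ∀ h ∈ S.HK, h ≠ 0 → S.W3 h = X := by
    intro h hh h0
    obtain ⟨a, rfl⟩ := hHKmem h hh
    have ha : a ≠ 0 := by
      rintro rfl
      exact h0 (zero_smul _ _)
    rw [S.W3_smul ha, hW3one]
  refine ⟨hSP, hHKeq, ?_, ?_, ?_, ?_⟩
  · obtain ⟨j, hj⟩ := hunit (fun j => S.ev1 (D.w j)) hw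
    obtain ⟨j', hj'⟩ := hunit (fun j => S.ev1 (D.w' j)) hw'
    exact ⟨(j, j'), hj.mul hj'⟩
  · intro h1 hh1 h2 hh2 h10
    obtain ⟨a1, rfl⟩ := hHKmem h1 hh1
    obtain ⟨a2, rfl⟩ := hHKmem h2 hh2
    have ha1 : a1 ≠ 0 := by
      rintro rfl
      exact h10 (zero_smul _ _)
    exact ⟨a2 / a1, by rw [smul_smul, div_mul_cancel₀ _ ha1]⟩
  · intro h hh h0
    obtain ⟨a, rfl⟩ := hHKmem h hh
    have ha : a ≠ 0 := by
      rintro rfl
      exact h0 (zero_smul _ _)
    rw [Algebra.smul_def, mul_one]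
    exact (IsUnit.mk0 a ha).map (algebraMap L E)
  · intro h hh h0
    rw [hW3 h hh h0, hε]
    exact ⟨rfl, hG2⟩

end Abstract

variable {K F : Type*} [Field K] [Field F] [Algebra K F] [IsAlgClosed K]
  {x : F} (hx : IsFunctionFieldGen K F x)
  [Algebra.IsSeparable (IntermediateField.adjoin K {x}) F]

include hx in
/-- **The generic fibre package**, base divisor `B`. -/
theorem s33d_fibre {T : Type*} [CommRing T] {D : AlpxChainData T} (S : S33kSp D K F)
    {B : Divisor K F} (hB : 6 * (genusR K F : ℤ) + 2 ≤ Divisor.degree B)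
    {D₁ D₂ D₃ E0 : Divisor K F} (hD₃ : 0 ≤ D₃)
    (hD₁deg : Divisor.degree D₁ = genusR K F) (hD₂deg : Divisor.degree D₂ = genusR K F)
    (hE0deg : Divisor.degree E0 = genusR K F)
    {h : F} (hh0 : h ≠ 0) (hh : ∀ P : Place K F, P.ord h = (D₃ + E0 - D₁ - D₂) P)
    (hell : ell D₃ = 1)
    (hε : Submodule.span K (Set.range S.ε1) = riemannRochSpace B)
    (hw : Submodule.span K (Set.range fun j => S.ev1 (D.w j)) = riemannRochSpace (B - D₁))
    (hw' : Submodule.span K (Set.range fun j => S.ev1 (D.w' j)) = riemannRochSpace (B - D₂))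
    (hβ : Submodule.span K (Set.range fun t => S.ev1 (D.β t)) = riemannRochSpace (B - E0))
    (hβ' : S.BE = riemannRochSpace (B + B - E0)) :
    h ∈ S.HK ∧ (∀ h' ∈ S.HK, ∃ a : K, h' = a • h) ∧
      S.SP = riemannRochSpace (B + B - D₁ - D₂) ∧
      (Module.finrank K ↥S.SP : ℤ) = 2 * Divisor.degree B - 3 * genusR K F + 1 ∧
      (∀ h' ∈ S.HK, h' ≠ 0 → S.W3 h' = riemannRochSpace (B - D₃)) ∧
      ∃ p, IsUnit (S.P p) := by
  obtain ⟨hspan, hfin⟩ := s33d_chain_span hx hB hD₁deg hD₂deg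
  -- the span of the products
  have hSP : S.SP = riemannRochSpace (B + B - D₁ - D₂) := by
    rw [← hspan]
    apply le_antisymm
    · rw [S33kSp.SP, Submodule.span_le]
      rintro _ ⟨p, rfl⟩
      refine Submodule.subset_span ⟨S.ev1 (D.w p.1), ?_, S.ev1 (D.w' p.2), ?_, rfl⟩
      · rw [← hw]; exact Submodule.subset_span ⟨p.1, rfl⟩
      · rw [← hw']; exact Submodule.subset_span ⟨p.2, rfl⟩
    · rw [Submodule.span_le]
      rintro _ ⟨u, hu, u', hu', rfl⟩
      rw [← hw] at hu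
      rw [← hw'] at hu'
      exact s33d_mul_mem_SP S hu hu'
  -- `h ∈ HK`
  have hHK : h ∈ S.HK := by
    intro p
    rw [hβ']
    refine s33d_chain_mul_mem hx hD₃ hh0 hh ?_ ?_
    · rw [← hw]; exact Submodule.subset_span ⟨p.1, rfl⟩
    · rw [← hw']; exact Submodule.subset_span ⟨p.2, rfl⟩
  -- uniqueness
  have huniq : ∀ h' ∈ S.HK, ∃ a : K, h' = a • h := by
    intro h' hh'
    refine s33d_chain_unique hx hB hD₁deg hD₂deg hD₃ hh0 hh hell h' ?_
    intro u hu u' hu'
    rw [← hw] at hu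
    rw [← hw'] at hu'
    rw [← hβ']
    exact (s33d_mem_HK_iff S h').mp hh' _ (s33d_mul_mem_SP S hu hu')
  -- the colon space of `h`
  have hW3 : S.W3 h = riemannRochSpace (B - D₃) := by
    ext u
    rw [s33d_mem_W3_iff, hβ, hSP, hε,
      s33d_chain_colon hx hB hD₁deg hD₂deg hE0deg hh0 hh u]
    constructor
    · exact fun hu => hu.2
    · exact fun hu => ⟨alpk_space_sub_le hx _ hD₃ hu, hu⟩
  refine ⟨hHK, huniq, hSP, ?_, ?_, ?_⟩
  · rw [hSP]; exact hfin
  · intro h' hh' hh'0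
    obtain ⟨a, rfl⟩ := huniq h' hh'
    have ha : a ≠ 0 := by
      rintro rfl
      exact hh'0 (zero_smul _ _)
    rw [S.W3_smul ha, hW3]
  · by_contra hcon
    push Not at hcon
    have hbot : S.SP = ⊥ := by
      rw [S33kSp.SP, Submodule.span_eq_bot]
      rintro _ ⟨p, rfl⟩
      by_contra hne
      exact hcon p (IsUnit.mk0 _ hne)
    have h0 : (Module.finrank K ↥S.SP : ℤ) = 0 := by
      rw [hbot, finrank_bot]; rfl
    rw [hSP, hfin] at h0
    have hg0 : (0 : ℤ) ≤ genusR K F := Int.natCast_nonneg _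
    omega

end Fermat.Agent.S33
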